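import Mathlib

/-!
# The matrix-tree theorem

The minor of the Laplacian at a point counts the spanning trees: expanding the determinant by rows
leaves one term for each map sending each point to a neighbour, and it is one or zero as the map
leads every point to the root or not. For the complete graph this gives Cayley's `n ^ (n - 2)`.
-/

set_option autoImplicit false

noncomputable section

namespace FA.MatrixTree

open Finset Classical Matrix

variable {V : Type*} [Fintype V]

/-- The points other than the root. -/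
abbrev Rest (r : V) := {u : V // u ≠ r}

/-- A choice of neighbours, extended to fix the root. -/
def extMap (r : V) (φ : Rest r → V) : V → V :=
  fun u => if h : u = r then r else φ ⟨u, h⟩

/-- Every point is led to the root. -/
def Reaches (r : V) (φ : Rest r → V) : Prop := ∀ u, ∃ k, (extMap r φ)^[k] u = r

/-- The matrix of rows `e u - e (φ u)` without the root's column. -/
def choiceMatrix (r : V) (φ : Rest r → V) : Matrix (Rest r) (Rest r) ℤ :=
  of fun u j => (if j = u then 1 else 0) - if φ u = j.1 then 1 else 0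

lemma det_choiceMatrix_of_reaches {r : V} {φ : Rest r → V} (h : Reaches r φ) :
    (choiceMatrix r φ).det = 1 := by
  set P : Matrix (Rest r) (Rest r) ℤ := of fun u j => if φ u = j.1 then 1 else 0 with hP
  have hM : choiceMatrix r φ = 1 - P := by
    ext u j
    simp [choiceMatrix, hP, Matrix.one_apply, eq_comm]
  have hpow : ∀ k u j, (P ^ k) u j = if (extMap r φ)^[k] u.1 = j.1 then 1 else 0 := by
    intro k
    induction k with
    | zero =>
      intro u j
      simp [Matrix.one_apply, Subtype.ext_iff]
    | succ k ih =>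
      intro u j
      rw [pow_succ', Matrix.mul_apply, Function.iterate_succ_apply]
      have hu : extMap r φ u.1 = φ u := by simp [extMap, u.2]
      rw [hu]
      by_cases hr : φ u = r
      · have h1 : ∀ l : Rest r, P u l = 0 := fun l => by simp [hP, hr, Ne.symm l.2]
        rw [hr, Function.iterate_fixed (by simp [extMap]) k, if_neg (Ne.symm j.2)]
        exact sum_eq_zero fun l _ => by rw [h1, zero_mul]
      · rw [Finset.sum_eq_single ⟨φ u, hr⟩]
        · rw [ih]
          simp [hP]
        · intro l _ hl
          have : φ u ≠ l.1 := fun he => hl (Subtype.ext he.symm)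
          simp [hP, this]
        · simp
  choose k hk using h
  have hnil : IsNilpotent P := by
    refine ⟨univ.sup k, ?_⟩
    ext u j
    rw [hpow, Matrix.zero_apply, if_neg]
    obtain ⟨m, hm⟩ : ∃ m, univ.sup k = m + k u.1 :=
      ⟨univ.sup k - k u.1, (Nat.sub_add_cancel (le_sup (mem_univ u.1))).symm⟩
    rw [hm, Function.iterate_add_apply, hk, Function.iterate_fixed (by simp [extMap]) m]
    exact Ne.symm j.2
  have hchar : P.charpoly = Polynomial.X ^ Fintype.card (Rest r) :=
    sub_eq_zero.1 (Matrix.isNilpotent_charpoly_sub_pow_of_isNilpotent hnil).eq_zero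
  have h1 := Matrix.eval_charpoly P 1
  rw [hchar] at h1
  simp at h1
  rw [hM]
  exact h1.symm

lemma det_choiceMatrix_of_not_reaches {r : V} {φ : Rest r → V} (h : ¬Reaches r φ) :
    (choiceMatrix r φ).det = 0 := by
  simp only [Reaches, not_forall, not_exists] at h
  obtain ⟨u₀, hu₀⟩ := h
  set C : V → Prop := fun u => ∀ k, ¬(extMap r φ)^[k] u = r with hC
  have hstep : ∀ u : Rest r, C (φ u) ↔ C u.1 := by
    intro u
    have hu : extMap r φ u.1 = φ u := by simp [extMap, u.2]
    simp only [hC]
    refine ⟨fun h1 k => ?_, fun h1 k hk => h1 (k + 1) (by rw [Function.iterate_succ_apply, hu, hk])⟩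
    cases k with
    | zero => exact u.2
    | succ k => rw [Function.iterate_succ_apply, hu]; exact h1 k
  rw [← Matrix.exists_mulVec_eq_zero_iff]
  refine ⟨fun j => if C j.1 then 1 else 0, ?_, ?_⟩
  · intro h0
    have h1 : C u₀ := hu₀
    have := congrFun h0 ⟨u₀, hu₀ 0⟩
    simp [h1] at this
  · funext u
    simp only [Matrix.mulVec, dotProduct, choiceMatrix, Matrix.of_apply, sub_mul, ite_mul, one_mul,
      zero_mul, sum_sub_distrib, Finset.sum_ite_eq', mem_univ, if_true, Pi.zero_apply]
    by_cases hr : φ u = r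
    · have hCu : ¬C u.1 := fun hc => (hstep u).2 hc 0 hr
      rw [if_neg hCu, sum_eq_zero fun l _ => by rw [if_neg (by rw [hr]; exact Ne.symm l.2)]]
      simp
    · rw [Finset.sum_eq_single ⟨φ u, hr⟩ (fun l _ hl =>
        if_neg fun he => hl (Subtype.ext he.symm)) (by simp), if_pos rfl]
      simp [hstep u]

variable (G : SimpleGraph V)

/-- The minor of the Laplacian is the number of choices leading to the root. -/
lemma det_minor (r : V) :
    ((G.lapMatrix ℤ).submatrix (Subtype.val : Rest r → V) Subtype.val).det =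
      ((Fintype.piFinset fun u : Rest r => G.neighborFinset u.1).filter (Reaches r)).card := by
  have hrows : (G.lapMatrix ℤ).submatrix (Subtype.val : Rest r → V) Subtype.val =
      of fun u : Rest r => ∑ w ∈ G.neighborFinset u.1,
        fun j : Rest r => (if j = u then (1 : ℤ) else 0) - if w = j.1 then 1 else 0 := by
    ext u j
    simp only [Matrix.submatrix_apply, Matrix.of_apply, Finset.sum_apply, sum_sub_distrib,
      SimpleGraph.lapMatrix, Matrix.sub_apply, SimpleGraph.degMatrix, Matrix.diagonal_apply,
      SimpleGraph.adjMatrix_apply]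
    rw [Finset.sum_ite_eq', Finset.sum_const, SimpleGraph.card_neighborFinset_eq_degree]
    by_cases h : j = u
    · subst h; simp
    · have : u.1 ≠ j.1 := fun he => h (Subtype.ext he.symm)
      simp [h, this]
  rw [hrows]
  have h2 := (Matrix.detRowAlternating (R := ℤ) (n := Rest r)).toMultilinearMap.map_sum_finset
    (fun u (w : V) => fun j : Rest r => (if j = u then (1 : ℤ) else 0) - if w = j.1 then 1 else 0)
    (fun u => G.neighborFinset u.1)
  refine h2.trans ?_
  rw [card_filter, Nat.cast_sum]
  refine sum_congr rfl fun φ _ => ?_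
  split_ifs with h
  · exact (det_choiceMatrix_of_reaches h).trans Nat.cast_one.symm
  · exact (det_choiceMatrix_of_not_reaches h).trans Nat.cast_zero.symm

/-- The graph of a choice. -/
def choiceGraph (r : V) (φ : Rest r → V) : SimpleGraph V :=
  SimpleGraph.fromRel fun u v => ∃ h : u ≠ r, φ ⟨u, h⟩ = v

lemma choiceGraph_tree {r : V} {φ : Rest r → V} (hadj : ∀ u, G.Adj u.1 (φ u))
    (h : Reaches r φ) : choiceGraph r φ ≤ G ∧ (choiceGraph r φ).IsTree := by
  constructor
  · intro u v huv
    simp only [choiceGraph, SimpleGraph.fromRel_adj] at huv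
    rcases huv.2 with ⟨h1, h2⟩ | ⟨h1, h2⟩
    · exact h2 ▸ hadj ⟨u, h1⟩
    · exact (h2 ▸ hadj ⟨v, h1⟩ : G.Adj v u).symm
  have hreach : ∀ k u, (extMap r φ)^[k] u = r → (choiceGraph r φ).Reachable u r := by
    intro k
    induction k with
    | zero => intro u hu; rw [show u = r from hu]
    | succ k ih =>
      intro u hu
      by_cases hur : u = r
      · rw [hur]
      rw [Function.iterate_succ_apply] at hu
      have hu' : extMap r φ u = φ ⟨u, hur⟩ := by simp [extMap, hur]
      have ha : (choiceGraph r φ).Adj u (extMap r φ u) := by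
        simp only [choiceGraph, SimpleGraph.fromRel_adj, hu']
        exact ⟨(hadj ⟨u, hur⟩).ne, Or.inl (by simp [hur])⟩
      exact ha.reachable.trans (ih _ hu)
  have hcon : (choiceGraph r φ).Connected := by
    have : Nonempty V := ⟨r⟩
    refine ⟨fun u v => ?_⟩
    obtain ⟨k, hk⟩ := h u
    obtain ⟨l, hl⟩ := h v
    exact (hreach k u hk).trans (hreach l v hl).symm
  rw [SimpleGraph.isTree_iff_connected_and_card]
  refine ⟨hcon, ?_⟩
  have hset : (choiceGraph r φ).edgeSet = Set.range fun u : Rest r => s(u.1, φ u) := by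
    ext e
    induction e using Sym2.ind with
    | _ a b =>
      simp only [SimpleGraph.mem_edgeSet, choiceGraph, SimpleGraph.fromRel_adj, Set.mem_range]
      constructor
      · rintro ⟨-, ⟨h1, h2⟩ | ⟨h1, h2⟩⟩
        · exact ⟨⟨a, h1⟩, by rw [h2]⟩
        · exact ⟨⟨b, h1⟩, by rw [h2, Sym2.eq_swap]⟩
      · rintro ⟨u, hu⟩
        have hne := (hadj u).ne
        rcases Sym2.eq_iff.1 hu with ⟨rfl, rfl⟩ | ⟨rfl, rfl⟩
        · exact ⟨hne, Or.inl ⟨u.2, rfl⟩⟩
        · exact ⟨hne.symm, Or.inr ⟨u.2, rfl⟩⟩
  have hinj : Function.Injective fun u : Rest r => s(u.1, φ u) := by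
    intro u v he
    rcases Sym2.eq_iff.1 he with ⟨h1, _⟩ | ⟨h1, h2⟩
    · exact Subtype.ext h1
    · -- a cycle of length two never reaches the root
      exfalso
      obtain ⟨k, hk⟩ := h u.1
      have e1 : extMap r φ u.1 = v.1 := by simp [extMap, u.2, h2]
      have e2 : extMap r φ v.1 = u.1 := by simp [extMap, v.2, ← h1]
      have hcyc : ∀ m, (extMap r φ)^[m] u.1 = u.1 ∨ (extMap r φ)^[m] u.1 = v.1 := by
        intro m
        induction m with
        | zero => exact Or.inl rfl
        | succ m ih =>
          rw [Function.iterate_succ_apply']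
          rcases ih with ih | ih
          · exact Or.inr (by rw [ih, e1])
          · exact Or.inl (by rw [ih, e2])
      rcases hcyc k with hh | hh
      · exact u.2 (hh.symm.trans hk)
      · exact v.2 (hh.symm.trans hk)
  rw [hset, Nat.card_range_of_injective hinj, Nat.card_eq_fintype_card, Nat.card_eq_fintype_card,
    Fintype.card_subtype_compl, Fintype.card_subtype_eq]
  have : 0 < Fintype.card V := Fintype.card_pos_iff.2 ⟨r⟩
  omega

omit [Fintype V] in
lemma choiceGraph_injOn {r : V} {φ ψ : Rest r → V} (hφ : Reaches r φ)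
    (hφa : ∀ u, G.Adj u.1 (φ u))
    (he : choiceGraph r φ = choiceGraph r ψ) : φ = ψ := by
  funext u
  by_contra hne
  have hstep : ∀ a, extMap r φ a ≠ extMap r ψ a →
      extMap r φ (extMap r φ a) ≠ extMap r ψ (extMap r φ a) := by
    intro a ha
    have har : a ≠ r := fun h => ha (by simp [extMap, h])
    have hb : extMap r φ a = φ ⟨a, har⟩ := by simp [extMap, har]
    have hadj : (choiceGraph r φ).Adj a (φ ⟨a, har⟩) := by
      simp only [choiceGraph, SimpleGraph.fromRel_adj]
      exact ⟨(hφa ⟨a, har⟩).ne, Or.inl (by simp [har])⟩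
    rw [he] at hadj
    simp only [choiceGraph, SimpleGraph.fromRel_adj] at hadj
    rcases hadj.2 with ⟨h1, h2⟩ | ⟨h1, h2⟩
    · exact absurd (by simp [extMap, har, h2]) ha
    · have e1 : extMap r ψ (extMap r φ a) = a := by
        rw [hb]; simp [extMap, h1, h2]
      intro h3
      rw [e1] at h3
      obtain ⟨k, hk⟩ := hφ a
      have hcyc : ∀ m, (extMap r φ)^[m] a = a ∨ (extMap r φ)^[m] a = extMap r φ a := by
        intro m
        induction m with
        | zero => exact Or.inl rfl
        | succ m ih =>
          rw [Function.iterate_succ_apply']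
          rcases ih with ih | ih
          · exact Or.inr (by rw [ih])
          · exact Or.inl (by rw [ih, h3])
      rcases hcyc k with hh | hh
      · exact har (hh.symm.trans hk)
      · exact h1 (hb.symm.trans (hh.symm.trans hk))
  have hall : ∀ k, extMap r φ ((extMap r φ)^[k] u.1) ≠ extMap r ψ ((extMap r φ)^[k] u.1) := by
    intro k
    induction k with
    | zero => simpa [extMap, u.2] using hne
    | succ k ih => rw [Function.iterate_succ_apply']; exact hstep _ ih
  obtain ⟨k, hk⟩ := hφ u.1
  exact hall k (by simp [hk, extMap])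

lemma exists_choice {r : V} {H : SimpleGraph V} (hle : H ≤ G) (hH : H.IsTree) :
    ∃ φ : Rest r → V, (∀ u, G.Adj u.1 (φ u)) ∧ Reaches r φ ∧ choiceGraph r φ = H := by
  have hconn := hH.connected
  have hnext : ∀ u : Rest r, ∃ w, H.Adj u.1 w ∧ H.dist u.1 r = H.dist w r + 1 := by
    intro u
    obtain ⟨p, hp⟩ := hconn.exists_walk_length_eq_dist u.1 r
    have hnil : ¬p.Nil := fun h => u.2 h.eq
    refine ⟨p.snd, p.adj_snd hnil, ?_⟩
    have h1 := SimpleGraph.dist_le p.tail
    have h2 := SimpleGraph.Walk.length_tail_add_one hnil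
    have h3 : H.dist u.1 p.snd = 1 := SimpleGraph.dist_eq_one_iff_adj.2 (p.adj_snd hnil)
    have h4 : H.dist u.1 r ≤ H.dist u.1 p.snd + H.dist p.snd r := hconn.dist_triangle
    omega
  choose φ hφ hd using hnext
  have hreach : Reaches r φ := by
    intro a
    induction hn : H.dist a r generalizing a with
    | zero => exact ⟨0, hconn.dist_eq_zero_iff.1 hn⟩
    | succ m ih =>
      have har : a ≠ r := by rintro rfl; simp at hn
      obtain ⟨k, hk⟩ := ih (φ ⟨a, har⟩) (by have := hd ⟨a, har⟩; simp only at this; omega)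
      refine ⟨k + 1, ?_⟩
      rw [Function.iterate_succ_apply]
      simpa [extMap, har] using hk
  refine ⟨φ, fun u => hle (hφ u), hreach, ?_⟩
  obtain ⟨h1, h2⟩ := choiceGraph_tree H hφ hreach
  rw [SimpleGraph.isTree_iff_connected_and_card] at h2
  have h3 := (SimpleGraph.isTree_iff_connected_and_card.1 hH).2
  rw [← SimpleGraph.edgeSet_inj]
  refine Set.eq_of_subset_of_ncard_le (SimpleGraph.edgeSet_mono h1) ?_
  have := h2.2
  rw [← Nat.card_coe_set_eq, ← Nat.card_coe_set_eq]
  omega

/-- The matrix-tree theorem. -/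
theorem matrix_tree_aux (r : V) :
    ((G.lapMatrix ℤ).submatrix (Subtype.val : Rest r → V) Subtype.val).det =
      {H : SimpleGraph V | H ≤ G ∧ H.IsTree}.ncard := by
  rw [det_minor, Nat.cast_inj, ← Set.ncard_coe_finset]
  refine Set.ncard_congr (fun φ _ => choiceGraph r φ) ?_ ?_ ?_
  · intro φ hφ
    obtain ⟨h1, h2⟩ := mem_filter.1 (mem_coe.1 hφ)
    exact choiceGraph_tree G (fun u => (G.mem_neighborFinset _ _).1 (Fintype.mem_piFinset.1 h1 u)) h2
  · intro φ ψ hφ hψ he
    obtain ⟨h1, h2⟩ := mem_filter.1 (mem_coe.1 hφ)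
    exact choiceGraph_injOn G h2
      (fun u => (G.mem_neighborFinset _ _).1 (Fintype.mem_piFinset.1 h1 u)) he
  · rintro H ⟨hle, hH⟩
    obtain ⟨φ, h1, h2, h3⟩ := exists_choice G (r := r) hle hH
    exact ⟨φ, mem_coe.2 (mem_filter.2 ⟨Fintype.mem_piFinset.2 fun u =>
      (G.mem_neighborFinset _ _).2 (h1 u), h2⟩), h3⟩

/-- Cayley's formula. -/
theorem cayley_aux (n : ℕ) (hn : 1 ≤ n) :
    {H : SimpleGraph (Fin n) | H.IsTree}.ncard = n ^ (n - 2) := by
  set r : Fin n := ⟨0, hn⟩
  have h := matrix_tree_aux (⊤ : SimpleGraph (Fin n)) r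
  simp only [le_top, true_and] at h
  have hdet : (((⊤ : SimpleGraph (Fin n)).lapMatrix ℤ).submatrix
      (Subtype.val : Rest r → Fin n) Subtype.val).det = ((n ^ (n - 2) : ℕ) : ℤ) := by
    set M := ((⊤ : SimpleGraph (Fin n)).lapMatrix ℤ).submatrix
      (Subtype.val : Rest r → Fin n) Subtype.val with hM
    have hcard : Fintype.card (Rest r) = n - 1 := by
      rw [Fintype.card_subtype_compl, Fintype.card_subtype_eq, Fintype.card_fin]
    have hent : ∀ i j, M i j = (if i = j then (n : ℤ) else 0) - 1 := by
      intro i j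
      simp only [hM, Matrix.submatrix_apply, SimpleGraph.lapMatrix, Matrix.sub_apply,
        SimpleGraph.degMatrix, Matrix.diagonal_apply, SimpleGraph.adjMatrix_apply,
        SimpleGraph.top_adj]
      have hdeg : ((⊤ : SimpleGraph (Fin n)).degree i.1 : ℤ) = (n : ℤ) - 1 := by
        rw [← SimpleGraph.card_neighborFinset_eq_degree]
        have : (⊤ : SimpleGraph (Fin n)).neighborFinset i.1 = univ.erase i.1 := by
          ext a; simp
        rw [this, card_erase_of_mem (mem_univ _), card_univ, Fintype.card_fin, Nat.cast_sub hn]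
        simp
      by_cases hij : i = j
      · subst hij; simp [Nat.cast_sub hn]
      · have : i.1 ≠ j.1 := fun he => hij (Subtype.ext he)
        simp [hij, this]
    have hq : ((M.det : ℤ) : ℚ) = ((n ^ (n - 2) : ℕ) : ℚ) := by
      have hn0 : (n : ℚ) ≠ 0 := by exact_mod_cast (by omega : n ≠ 0)
      have hmap : M.map (fun x : ℤ => (x : ℚ)) = (n : ℚ) • (1 + replicateCol Unit
          (fun _ : Rest r => -(n : ℚ)⁻¹) * replicateRow Unit (fun _ : Rest r => (1 : ℚ))) := by
        ext i j
        simp [hent, Matrix.one_apply, Matrix.mul_apply, mul_add, mul_ite, hn0]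
        split_ifs <;> ring
      have h5 : ((M.det : ℤ) : ℚ) = (M.map (fun x : ℤ => (x : ℚ))).det :=
        RingHom.map_det (Int.castRingHom ℚ) M
      rw [h5, hmap, Matrix.det_smul, Matrix.det_one_add_replicateCol_mul_replicateRow, hcard]
      simp only [dotProduct, sum_const, card_univ, hcard, nsmul_eq_mul]
      obtain rfl | ⟨m, rfl⟩ : n = 1 ∨ ∃ m, n = m + 2 := by
        rcases Nat.lt_or_ge n 2 with h | h
        · left; omega
        · exact Or.inr ⟨n - 2, by omega⟩
      · simp
      · rw [Nat.add_sub_cancel, show m + 2 - 1 = m + 1 by omega]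
        push_cast
        field_simp
        ring
    exact_mod_cast hq
  have h3 : ({H : SimpleGraph (Fin n) | H.IsTree}.ncard : ℤ) = ((n ^ (n - 2) : ℕ) : ℤ) := by
    rw [← h]; convert hdet
  exact_mod_cast h3

end FA.MatrixTree
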